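/-
P-S44/S40, leaf (W-G1) (helper3): the W-structure for the subgroup `G1 = {τ ∈ I : τ ζ = ζ}`.

`P` a valuation subring of `Qbar` over the prime `p`, `I = P.inertiaSubgroupIn ℚ`, `ζ` a primitive
`p`-th root of unity, `G1 P ζ ≤ I` the stabiliser of `ζ`, `K1 = Qbar^{G1}`, `O1 = P ∩ K1`.

The landed W-structure (`S33x/W/InstW`, `S33x/H1/CechFixedB`, `S33x/W/ScalFixedTwo`) is generic in
the set `Γ` of semilinear automorphisms, except for the field `unif` of `FixData2`, which is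
inertia-specific (uniformiser `p`).  This file supplies `unif` for `G1` (uniformiser `ζ - 1`) and
assembles `FixData2` for the coefficientwise action of `G1` at level `M q`.

* `G1`, `G1Act` : the subgroup and its coefficientwise action on the function field of level `N`;
* `sub_one_mem_nonunits`, `sub_one_ne_zero`, `exists_natCast_eq_mul_sub_one_pow` :
  `ζ - 1 ∈ 𝔪`, `≠ 0`, `p = z (ζ - 1)^(p-1)` with `z ∈ P`;
* `exists_eq_sub_one_mul_of_fixed` (**unif**) : a `G1`-fixed element of `𝔪` is `(ζ - 1)` times a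
  `G1`-fixed element of `P`.  Proof: the product of the (at most `p - 1`) inertia conjugates of `c`
  is inertia-fixed, hence divisible by `p` (`S19x/Hens/InertiaResidue`).
* `fixData2_G1`, `fixData2W_G1` : `FixData2 (redSetup2 H hA) (G1Act P ζ (M q))` (both copies);
* `span_fixed_G1Act` : `hF` for `G1Act`.
-/
import Mathlib
import Fermat.Agent.S33x.H1.FixData2Inst
import Fermat.Agent.S33x.W.ScalFixedTwo
import Fermat.Agent.S19x.Hens.InertiaResidue

set_option autoImplicit false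
set_option linter.unusedSectionVars false
set_option linter.unusedVariables false
set_option linter.dupNamespace false
set_option linter.style.haveILetI false

noncomputable section

namespace Fermat.Agent.S40x.W.G1

open scoped Pointwise
open IsLocalRing
open Fermat.Agent.S56x.Hens Fermat.Agent.S56x.Flat.InertiaField Fermat.Agent.S19x.Hens
  Fermat.Agent.S19x.Hens.InertiaResidue

local notation "Qbar" => AlgebraicClosure ℚ
local notation "Γℚ" => (AlgebraicClosure ℚ ≃ₐ[ℚ] AlgebraicClosure ℚ)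

variable (P : ValuationSubring Qbar)

/-! ### The subgroup `G1` -/

/-- `G1 = {τ ∈ I_P : τ ζ = ζ}`: the stabiliser of `ζ` in the inertia group of `P`. -/
def G1 (ζ : Qbar) : Subgroup Γℚ where
  carrier := {t | t ∈ P.inertiaSubgroupIn ℚ ∧ t ζ = ζ}
  mul_mem' := fun {a b} ha hb => ⟨mul_mem ha.1 hb.1, by
    show a (b ζ) = ζ
    rw [hb.2, ha.2]⟩
  one_mem' := ⟨one_mem _, rfl⟩
  inv_mem' := fun {a} ha => ⟨inv_mem ha.1, by
    show a⁻¹ ζ = ζ
    have h1 : a⁻¹ (a ζ) = ζ := by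
      show (a⁻¹ * a) ζ = ζ
      rw [inv_mul_cancel]
      rfl
    rwa [ha.2] at h1⟩

variable {P}

theorem mem_G1 {ζ : Qbar} {t : Γℚ} : t ∈ G1 P ζ ↔ t ∈ P.inertiaSubgroupIn ℚ ∧ t ζ = ζ := Iff.rfl

theorem G1_le (ζ : Qbar) : G1 P ζ ≤ P.inertiaSubgroupIn ℚ := fun _ ht => ht.1

/-! ### Inertia preserves `P` and `𝔪` -/

theorem apply_mem_of_inertia {t : Γℚ} (ht : t ∈ P.inertiaSubgroupIn ℚ) {x : Qbar} (hx : x ∈ P) :
    t x ∈ P := by
  have h1 := ((mem_inertiaSubgroupIn_iff P t).mp ht).2 x hx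
  have h2 : t x = (t x - x) + x := by ring
  rw [h2]
  exact P.add_mem _ _ (P.nonunits_subset h1) hx

theorem apply_mem_nonunits_of_inertia {t : Γℚ} (ht : t ∈ P.inertiaSubgroupIn ℚ) {x : Qbar}
    (hx : x ∈ P.nonunits) : t x ∈ P.nonunits := by
  have hxP : x ∈ P := P.nonunits_subset hx
  have htx : t x ∈ P := apply_mem_of_inertia ht hxP
  have h1 := ((mem_inertiaSubgroupIn_iff P t).mp ht).2 x hxP
  rw [sub_mem_nonunits_iff P htx hxP] at h1
  rw [mem_nonunits_iff_residue P htx, h1, ← mem_nonunits_iff_residue P hxP]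
  exact hx

/-! ### The uniformiser `ζ - 1` -/

section Unif

variable {p : ℕ} (hp : p.Prime) (hP : P.LiesOverPrime p) {ζ : Qbar} (hζ : IsPrimitiveRoot ζ p)

include hp hζ in
theorem zeta_mem : ζ ∈ P := mem_of_pow_eq_one P hp.pos hζ.pow_eq_one

include hp hζ in
theorem sub_one_ne_zero : ζ - 1 ≠ 0 := sub_ne_zero.mpr (hζ.ne_one hp.one_lt)

include hp hP hζ in
/-- `ζ - 1` lies in the maximal ideal. -/
theorem sub_one_mem_nonunits : ζ - 1 ∈ P.nonunits := by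
  have hζP := zeta_mem hp hζ (P := P)
  have h1P : ζ - 1 ∈ P := sub_mem hζP (one_mem P)
  haveI := charP_residueField P hp hP
  haveI : Fact p.Prime := ⟨hp⟩
  rw [mem_nonunits_iff_residue P h1P]
  have e : (⟨ζ - 1, h1P⟩ : P) = (⟨ζ, hζP⟩ : P) - 1 := rfl
  rw [e, map_sub, map_one]
  have h2 : (residue P ⟨ζ, hζP⟩ - 1) ^ p = 0 := by
    rw [sub_pow_char, one_pow, ← map_pow]
    have e2 : (⟨ζ, hζP⟩ : P) ^ p = 1 := Subtype.ext (by
      show ζ ^ p = 1
      exact hζ.pow_eq_one)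
    rw [e2, map_one, sub_self]
  exact pow_eq_zero_iff hp.ne_zero |>.mp h2

include hp hζ in
/-- for any `p`-th root of unity `ξ`, `ξ - 1` is a `P`-multiple of `ζ - 1`. -/
theorem exists_sub_one_eq_mul {ξ : Qbar} (hξ : ξ ^ p = 1) :
    ∃ w ∈ P, ξ - 1 = (ζ - 1) * w := by
  haveI : NeZero p := ⟨hp.ne_zero⟩
  obtain ⟨i, -, rfl⟩ := hζ.eq_pow_of_pow_eq_one hξ
  refine ⟨∑ j ∈ Finset.range i, ζ ^ j, ?_, ?_⟩
  · exact sum_mem fun j _ => pow_mem (zeta_mem hp hζ) j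
  · rw [mul_comm, geom_sum_mul]

include hp hζ in
/-- `p = z (ζ - 1)^(p-1)` with `z ∈ P`. -/
theorem exists_natCast_eq_mul_sub_one_pow :
    ∃ z ∈ P, (p : Qbar) = z * (ζ - 1) ^ (p - 1) := by
  obtain ⟨z, hz, h⟩ := hζ.self_sub_one_pow_dvd_order (Nat.sub_lt hp.pos one_pos)
  refine ⟨z, ?_, h⟩
  clear h
  have hζP := zeta_mem hp hζ (P := P)
  induction hz using Algebra.adjoin_induction with
  | mem x hx =>
    rw [Set.mem_singleton_iff] at hx
    rw [hx]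
    exact hζP
  | algebraMap r =>
    rw [eq_intCast]
    exact intCast_mem P r
  | add x y _ _ hx hy => exact P.add_mem _ _ hx hy
  | mul x y _ _ hx hy => exact P.mul_mem _ _ hx hy

end Unif


/-! ### The norm from `K1` to `K0`, by hand -/

section Norm

variable {p : ℕ} (hp : p.Prime) (hP : P.LiesOverPrime p) {ζ : Qbar} (hζ : IsPrimitiveRoot ζ p)

/-- the inertia conjugates of `ζ`. -/
def conjSet (P : ValuationSubring Qbar) (p : ℕ) (ζ : Qbar) : Finset Qbar := by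
  classical
  exact (primitiveRoots p Qbar).filter (fun t => ∃ σ ∈ P.inertiaSubgroupIn ℚ, σ ζ = t)

include hp hζ in
theorem mem_conjSet {t : Qbar} :
    t ∈ conjSet P p ζ ↔ ∃ σ ∈ P.inertiaSubgroupIn ℚ, σ ζ = t := by
  classical
  unfold conjSet
  rw [Finset.mem_filter, mem_primitiveRoots hp.pos]
  constructor
  · exact fun h => h.2
  · rintro ⟨σ, hσ, rfl⟩
    exact ⟨hζ.map_of_injective σ.injective, σ, hσ, rfl⟩

include hp in
theorem card_conjSet_le : (conjSet P p ζ).card ≤ p - 1 := by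
  classical
  unfold conjSet
  refine (Finset.card_filter_le _ _).trans ?_
  by_cases h : ∃ ξ : Qbar, IsPrimitiveRoot ξ p
  · obtain ⟨ξ, hξ⟩ := h
    rw [hξ.card_primitiveRoots, Nat.totient_prime hp]
  · have : primitiveRoots p Qbar = ∅ := by
      rw [Finset.eq_empty_iff_forall_notMem]
      intro ξ hξ
      exact h ⟨ξ, (mem_primitiveRoots hp.pos).mp hξ⟩
    rw [this, Finset.card_empty]
    exact Nat.zero_le _

/-- a chosen inertia element moving `ζ` to `t` (junk outside `conjSet`). -/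
def lift (P : ValuationSubring Qbar) (ζ t : Qbar) : Γℚ := by
  classical
  exact if h : ∃ σ ∈ P.inertiaSubgroupIn ℚ, σ ζ = t then h.choose else 1

theorem lift_spec {t : Qbar} (h : ∃ σ ∈ P.inertiaSubgroupIn ℚ, σ ζ = t) :
    lift P ζ t ∈ P.inertiaSubgroupIn ℚ ∧ lift P ζ t ζ = t := by
  classical
  unfold lift
  rw [dif_pos h]
  exact h.choose_spec

/-- **Key property**: a `G1`-fixed element is moved by `σ ∈ I` like by the chosen lift of `σ ζ`. -/
theorem apply_eq_lift_apply {c : Qbar} (hfix : ∀ t ∈ G1 P ζ, t c = c) {σ : Γℚ}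
    (hσ : σ ∈ P.inertiaSubgroupIn ℚ) : σ c = lift P ζ (σ ζ) c := by
  obtain ⟨h1, h2⟩ := lift_spec (P := P) (ζ := ζ) (t := σ ζ) ⟨σ, hσ, rfl⟩
  set s := lift P ζ (σ ζ) with hs
  have hmem : s⁻¹ * σ ∈ G1 P ζ := by
    refine ⟨mul_mem (inv_mem h1) hσ, ?_⟩
    show s⁻¹ (σ ζ) = ζ
    rw [← h2]
    show (s⁻¹ * s) ζ = ζ
    rw [inv_mul_cancel]
    rfl
  have h3 := hfix _ hmem
  have h4 : s ((s⁻¹ * σ) c) = σ c := by
    show (s * (s⁻¹ * σ)) c = σ c
    rw [mul_inv_cancel_left]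
  rw [← h4, h3]

/-- the norm of `c` from `K1` to `K0`: the product of the inertia conjugates. -/
def normG1 (P : ValuationSubring Qbar) (p : ℕ) (ζ c : Qbar) : Qbar :=
  ∏ t ∈ conjSet P p ζ, lift P ζ t c

include hp hζ in
/-- the norm is fixed by inertia. -/
theorem normG1_fixed {c : Qbar} (hfix : ∀ t ∈ G1 P ζ, t c = c) (ρ : Γℚ)
    (hρ : ρ ∈ P.inertiaSubgroupIn ℚ) : ρ (normG1 P p ζ c) = normG1 P p ζ c := by
  unfold normG1
  rw [map_prod]
  refine Finset.prod_nbij' (fun t => ρ t) (fun t => ρ⁻¹ t) ?_ ?_ ?_ ?_ ?_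
  · intro t ht
    obtain ⟨σ, hσ, rfl⟩ := (mem_conjSet hp hζ).mp ht
    exact (mem_conjSet hp hζ).mpr ⟨ρ * σ, mul_mem hρ hσ, rfl⟩
  · intro t ht
    obtain ⟨σ, hσ, rfl⟩ := (mem_conjSet hp hζ).mp ht
    exact (mem_conjSet hp hζ).mpr ⟨ρ⁻¹ * σ, mul_mem (inv_mem hρ) hσ, rfl⟩
  · intro t _
    show (ρ⁻¹ * ρ) t = t
    rw [inv_mul_cancel]
    rfl
  · intro t _
    show (ρ * ρ⁻¹) t = t
    rw [mul_inv_cancel]
    rfl
  · intro t ht
    obtain ⟨h1, h2⟩ := lift_spec (P := P) (ζ := ζ) ((mem_conjSet hp hζ).mp ht)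
    have h3 := apply_eq_lift_apply hfix (σ := ρ * lift P ζ t) (mul_mem hρ h1)
    have h4 : (ρ * lift P ζ t) ζ = ρ t := by
      show ρ (lift P ζ t ζ) = ρ t
      rw [h2]
    rw [h4] at h3
    exact h3

include hp hζ in
theorem zeta_mem_conjSet : ζ ∈ conjSet P p ζ :=
  (mem_conjSet hp hζ).mpr ⟨1, one_mem _, rfl⟩

end Norm


/-! ### `unif` for `G1` -/

section Main

variable {p : ℕ} (hp : p.Prime) (hP : P.LiesOverPrime p) {ζ : Qbar} (hζ : IsPrimitiveRoot ζ p)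

/-- a nonempty product of elements of `𝔪` lies in `𝔪`. -/
theorem prod_mem_nonunits {ι : Type*} (T : Finset ι) (hT : T.Nonempty) (r : ι → Qbar)
    (hr : ∀ t ∈ T, r t ∈ P.nonunits) : ∏ t ∈ T, r t ∈ P.nonunits := by
  classical
  induction hT using Finset.Nonempty.cons_induction with
  | singleton a =>
    rw [Finset.prod_singleton]
    exact hr a (Finset.mem_singleton_self a)
  | cons a T' ha hT' ih =>
    rw [Finset.prod_cons]
    refine mul_mem_nonunits_right P (hr a (Finset.mem_cons_self a T')) ?_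
    exact P.nonunits_subset (ih fun t ht => hr t (Finset.mem_cons_of_mem ht))

include hp hP hζ in
/-- **`unif` for `G1`**: a `G1`-fixed element of the maximal ideal is `(ζ - 1)` times an element
of `P`. -/
theorem div_mem_of_fixedG1 {c : Qbar} (hc : c ∈ P.nonunits) (hfix : ∀ t ∈ G1 P ζ, t c = c) :
    c * (ζ - 1)⁻¹ ∈ P := by
  by_cases hc0 : c = 0
  · rw [hc0, zero_mul]
    exact P.zero_mem
  have hπ0 : ζ - 1 ≠ 0 := sub_one_ne_zero hp hζ
  by_contra hnot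
  -- `(ζ - 1) / c ∈ 𝔪`
  have h1 : (ζ - 1) * c⁻¹ ∈ P.nonunits := by
    have h2 : (c * (ζ - 1)⁻¹)⁻¹ = (ζ - 1) * c⁻¹ := by
      rw [mul_inv, inv_inv, mul_comm]
    rw [← h2, ValuationSubring.mem_nonunits_iff, map_inv₀]
    have h3 : 1 < P.valuation (c * (ζ - 1)⁻¹) := by
      rw [← not_le, ValuationSubring.valuation_le_one_iff]
      exact hnot
    exact inv_lt_one_of_one_lt₀ h3
  set T := conjSet P p ζ with hT
  -- every factor
  have hfac : ∀ t ∈ T, (ζ - 1) * (lift P ζ t c)⁻¹ ∈ P.nonunits := by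
    intro t ht
    obtain ⟨hs1, hs2⟩ := lift_spec (P := P) (ζ := ζ) ((mem_conjSet hp hζ).mp ht)
    set s := lift P ζ t
    have h4 : s ((ζ - 1) * c⁻¹) ∈ P.nonunits := apply_mem_nonunits_of_inertia hs1 h1
    rw [map_mul, map_inv₀, map_sub, map_one, hs2] at h4
    -- `ζ - 1 = (t - 1) w`
    have htprim : IsPrimitiveRoot t p := by
      rw [← hs2]
      exact hζ.map_of_injective s.injective
    obtain ⟨w, hw, hwe⟩ := exists_sub_one_eq_mul hp htprim (ξ := ζ) hζ.pow_eq_one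
    rw [hwe, mul_assoc, mul_comm w, ← mul_assoc]
    exact mul_mem_nonunits_right P h4 hw
  have hprod : ∏ t ∈ T, ((ζ - 1) * (lift P ζ t c)⁻¹) ∈ P.nonunits :=
    prod_mem_nonunits T ⟨ζ, zeta_mem_conjSet hp hζ⟩ _ hfac
  rw [Finset.prod_mul_distrib, Finset.prod_const, Finset.prod_inv_distrib] at hprod
  change (ζ - 1) ^ T.card * (normG1 P p ζ c)⁻¹ ∈ P.nonunits at hprod
  -- the norm is divisible by `p`
  have heP : ∀ t ∈ T, lift P ζ t c ∈ P.nonunits := fun t ht =>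
    apply_mem_nonunits_of_inertia (lift_spec (P := P) (ζ := ζ) ((mem_conjSet hp hζ).mp ht)).1 hc
  have hem : normG1 P p ζ c ∈ P.nonunits :=
    prod_mem_nonunits T ⟨ζ, zeta_mem_conjSet hp hζ⟩ _ heP
  have he0 : normG1 P p ζ c ≠ 0 := by
    unfold normG1
    rw [Finset.prod_ne_zero_iff]
    intro t _
    exact (map_ne_zero _).mpr hc0
  obtain ⟨d, hd, hde⟩ := exists_eq_natCast_mul_of_fixed P hp hP hem
    (fun ρ hρ => normG1_fixed hp hζ hfix ρ hρ)
  obtain ⟨z, hz, hpz⟩ := exists_natCast_eq_mul_sub_one_pow hp hζ (P := P)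
  have hp0 : (p : Qbar) ≠ 0 := Nat.cast_ne_zero.mpr hp.ne_zero
  have hd0 : d ≠ 0 := by
    rintro rfl
    rw [mul_zero] at hde
    exact he0 hde
  -- `1 = d * (p / e)` lies in `𝔪`
  have hcard : T.card ≤ p - 1 := card_conjSet_le hp
  have h5 : (p : Qbar) * (normG1 P p ζ c)⁻¹ ∈ P.nonunits := by
    have h6 : (p : Qbar) * (normG1 P p ζ c)⁻¹ =
        ((ζ - 1) ^ T.card * (normG1 P p ζ c)⁻¹) * (z * (ζ - 1) ^ (p - 1 - T.card)) := by
      rw [hpz]
      have h7 : (ζ - 1) ^ (p - 1) = (ζ - 1) ^ T.card * (ζ - 1) ^ (p - 1 - T.card) := by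
        rw [← pow_add, Nat.add_sub_cancel' hcard]
      rw [h7]
      ring
    rw [h6]
    refine mul_mem_nonunits_right P hprod (P.mul_mem _ _ hz (pow_mem ?_ _))
    exact P.nonunits_subset (sub_one_mem_nonunits hp hP hζ)
  have h8 : (1 : Qbar) = ((p : Qbar) * (normG1 P p ζ c)⁻¹) * d := by
    rw [hde, mul_inv]
    field_simp
  exact one_notMem_nonunits P (h8 ▸ mul_mem_nonunits_right P h5 hd.1)

include hp hP hζ in
/-- **`unif` for `G1`**, multiplicative form: `c = (ζ - 1) d` with `d ∈ P` fixed by `G1`. -/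
theorem exists_eq_sub_one_mul_of_fixed {c : Qbar} (hc : c ∈ P.nonunits)
    (hfix : ∀ t ∈ G1 P ζ, t c = c) :
    ∃ d ∈ P, (∀ t ∈ G1 P ζ, t d = d) ∧ c = (ζ - 1) * d := by
  have hπ0 : ζ - 1 ≠ 0 := sub_one_ne_zero hp hζ
  refine ⟨c * (ζ - 1)⁻¹, div_mem_of_fixedG1 hp hP hζ hc hfix, fun t ht => ?_, ?_⟩
  · rw [map_mul, map_inv₀, map_sub, map_one, hfix t ht, ht.2]
  · rw [mul_comm, mul_assoc, inv_mul_cancel₀ hπ0, mul_one]

end Main


/-! ### `FixData2` for `G1` -/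

section Abstract

open Fermat.Agent.S34x.C0two AlgebraicCurve
open Fermat.Agent.S19x.Geo.LatticeFixed (IsFixed IsFixedK)
open Fermat.Agent.S33x.H1.FixData2Inst

variable {p : ℕ} {ζ : Qbar} {F : Type*} [Field F] [Algebra Qbar F]
  (Γ : Set (SemilinearAut Qbar F))

/-- **`FixData2.unif` for `G1`**, with uniformiser `ζ - 1`: for any set `Γ` of semilinear
automorphisms whose base automorphisms are exactly the elements of `G1 P ζ`. -/
theorem unifG1 (hp : p.Prime) (hP : P.LiesOverPrime p) (hζ : IsPrimitiveRoot ζ p)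
    (hΓ : ∀ s ∈ Γ, ∃ σ ∈ G1 P ζ, ∀ c : Qbar, SemilinearAut.baseAut s c = σ c)
    (hΓ' : ∀ σ ∈ G1 P ζ, ∃ s ∈ Γ, ∀ c : Qbar, SemilinearAut.baseAut s c = σ c) :
    ∃ ϖ : P, ϖ ∈ maximalIdeal P ∧ ϖ ≠ 0 ∧ IsFixedK Γ (ϖ : Qbar) ∧
      ∀ c : P, IsFixedK Γ (c : Qbar) → c ∈ maximalIdeal P → ϖ ∣ c := by
  have hπm := sub_one_mem_nonunits hp hP hζ (P := P)
  refine ⟨⟨ζ - 1, P.nonunits_subset hπm⟩, ?_, ?_, ?_, ?_⟩
  · rw [← ValuationSubring.coe_mem_nonunits_iff]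
    exact hπm
  · intro h
    exact sub_one_ne_zero hp hζ (congrArg (fun z : P => (z : Qbar)) h)
  · intro s hs
    obtain ⟨σ, hσ, hσs⟩ := hΓ s hs
    show SemilinearAut.baseAut s (ζ - 1) = ζ - 1
    rw [hσs, map_sub, map_one, hσ.2]
  · intro c hc hcm
    rw [← ValuationSubring.coe_mem_nonunits_iff] at hcm
    obtain ⟨d, hd, -, hcd⟩ := exists_eq_sub_one_mul_of_fixed hp hP hζ hcm (fun σ hσ => by
      obtain ⟨s, hs, hσs⟩ := hΓ' σ hσ
      rw [← hσs]
      exact hc s hs)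
    exact ⟨⟨d, hd⟩, Subtype.ext hcd⟩

variable {O₁ O₂ : ValuationSubring F} {k κ : Type*} [Field k] [CommRing κ] [Algebra k κ]
  (R : RedSetup2 P (twoVal O₁ O₂) k κ)

/-- **`FixData2` (of `S33x/H1/LatticeFixed2`) for `G1` and a pair of valuations**, from the two
one-valuation `scal_fixed` statements. -/
theorem fixData2_twoVal_G1 (hp : p.Prime) (hP : P.LiesOverPrime p) (hζ : IsPrimitiveRoot ζ p)
    (hΓ : ∀ s ∈ Γ, ∃ σ ∈ G1 P ζ, ∀ c : Qbar, SemilinearAut.baseAut s c = σ c)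
    (hΓ' : ∀ σ ∈ G1 P ζ, ∃ s ∈ Γ, ∀ c : Qbar, SemilinearAut.baseAut s c = σ c)
    (hscal₁ : ∀ f : F, f ≠ 0 → IsFixed Γ f →
      ∃ c : Qbar, c ≠ 0 ∧ IsFixedK Γ c ∧ O₁.valuation (c • f) = 1)
    (hscal₂ : ∀ f : F, f ≠ 0 → IsFixed Γ f →
      ∃ c : Qbar, c ≠ 0 ∧ IsFixedK Γ c ∧ O₂.valuation (c • f) = 1) :
    Fermat.Agent.S33x.H1.LatticeFixed2.FixData2 R Γ :=
  ⟨residue_surj2 R Γ hp hP (fun s hs => by
      obtain ⟨σ, hσ, h⟩ := hΓ s hs
      exact ⟨σ, hσ.1, h⟩),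
    unifG1 Γ hp hP hζ hΓ hΓ', scal_fixed2_twoVal R Γ hscal₁ hscal₂⟩

/-- **`FixData2` (of `S33x/W/LatticeFixed2`) for `G1` and a pair of valuations.** -/
theorem fixData2W_twoVal_G1 (hp : p.Prime) (hP : P.LiesOverPrime p) (hζ : IsPrimitiveRoot ζ p)
    (hΓ : ∀ s ∈ Γ, ∃ σ ∈ G1 P ζ, ∀ c : Qbar, SemilinearAut.baseAut s c = σ c)
    (hΓ' : ∀ σ ∈ G1 P ζ, ∃ s ∈ Γ, ∀ c : Qbar, SemilinearAut.baseAut s c = σ c)
    (hscal₁ : ∀ f : F, f ≠ 0 → IsFixed Γ f →
      ∃ c : Qbar, c ≠ 0 ∧ IsFixedK Γ c ∧ O₁.valuation (c • f) = 1)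
    (hscal₂ : ∀ f : F, f ≠ 0 → IsFixed Γ f →
      ∃ c : Qbar, c ≠ 0 ∧ IsFixedK Γ c ∧ O₂.valuation (c • f) = 1) :
    Fermat.Agent.S33x.W.LatticeFixed2.FixData2 R Γ :=
  ⟨residue_surj2 R Γ hp hP (fun s hs => by
      obtain ⟨σ, hσ, h⟩ := hΓ s hs
      exact ⟨σ, hσ.1, h⟩),
    unifG1 Γ hp hP hζ hΓ hΓ', scal_fixed2_twoVal R Γ hscal₁ hscal₂⟩

end Abstract

/-! ### The instance at level `M q` -/

section Level

open ModularCurve AlgebraicCurve
open Fermat.Agent.S34x.C0two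
open Fermat.Agent.S19x.Geo.LatticeFixed (IsFixed IsFixedK)
open Fermat.Agent.Gateway.Hecke Fermat.Agent.S34x.TwoVal Fermat.Agent.S34x.Inst.RedSetupInst
open Fermat.Agent.S33x.H1.FixData2Inst Fermat.Agent.S33x.W.ScalFixedTwo

/-- The coefficientwise action of `G1 P ζ` on the function field of level `N` over `Qbar`, as a
set of semilinear automorphisms. -/
abbrev G1Act (P : ValuationSubring Qbar) (ζ : Qbar) (N : ℕ) :
    Set (SemilinearAut Qbar (laurentBaseChange Qbar (modularFunctionFieldFull N))) :=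
  arithmeticGalois (L := Qbar) (modularFunctionFieldFull N) '' (G1 P ζ : Set Γℚ)

theorem G1Act_subset (P : ValuationSubring Qbar) (ζ : Qbar) (N : ℕ) :
    G1Act P ζ N ⊆ inertiaAct P N := by
  rintro _ ⟨σ, hσ, rfl⟩
  exact ⟨σ, hσ.1, rfl⟩

theorem G1Act_baseAut (P : ValuationSubring Qbar) (ζ : Qbar) (N : ℕ) :
    ∀ s ∈ G1Act P ζ N, ∃ σ ∈ G1 P ζ, ∀ c : Qbar, SemilinearAut.baseAut s c = σ c := by
  rintro _ ⟨σ, hσ, rfl⟩
  exact ⟨σ, hσ, fun c => rfl⟩

theorem G1Act_baseAut' (P : ValuationSubring Qbar) (ζ : Qbar) (N : ℕ) :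
    ∀ σ ∈ G1 P ζ, ∃ s ∈ G1Act P ζ N, ∀ c : Qbar, SemilinearAut.baseAut s c = σ c := by
  intro σ hσ
  exact ⟨_, ⟨σ, hσ, rfl⟩, fun c => rfl⟩

/-- inertia-fixed functions are `G1`-fixed. -/
theorem isFixed_G1Act_of_inertiaAct {P : ValuationSubring Qbar} {ζ : Qbar} {N : ℕ}
    {f : laurentBaseChange Qbar (modularFunctionFieldFull N)} (hf : IsFixed (inertiaAct P N) f) :
    IsFixed (G1Act P ζ N) f := fun s hs => hf s (G1Act_subset P ζ N hs)

/-- inertia-fixed scalars are `G1`-fixed. -/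
theorem isFixedK_G1Act_of_inertiaAct {P : ValuationSubring Qbar} {ζ : Qbar} {N : ℕ}
    {c : Qbar} (hc : IsFixedK (inertiaAct P N) c) :
    IsFixedK (G1Act P ζ N) c := fun s hs => hc s (G1Act_subset P ζ N hs)

/-- **`hF`** for `G1`: the function field of level `N` over `Qbar` is spanned by the `G1`-fixed
functions. -/
theorem span_fixed_G1Act (P : ValuationSubring Qbar) (ζ : Qbar) (N : ℕ) :
    Submodule.span Qbar
      {f : laurentBaseChange Qbar (modularFunctionFieldFull N) | IsFixed (G1Act P ζ N) f} = ⊤ := by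
  have : Algebra.IsAlgebraic ℚ Qbar := AlgebraicClosure.isAlgebraic ℚ
  refine Fermat.Agent.S19x.Geo.FixDataInertiaSpan.span_fixed_eq_top (G1Act P ζ N) ?_
  rintro _ ⟨σ, -, rfl⟩
  exact ⟨σ, rfl⟩

variable {P : ValuationSubring Qbar} {k : Type} [Field k] {π : P →+* k} [IsAlgClosed k]
variable {M q : ℕ} [NeZero M] [Fact q.Prime] [CharP k q]
variable {hdeg : finrankAlong Qbar (heckeAlphaBar Qbar M q) = q + 1} {hq : q.Prime}
  {hqM : ¬ q ∣ M}
variable {hrk : ∀ x ∈ maximalIdeal P, ∀ c : P, c ≠ 0 → ∃ j : ℕ, c ∣ x ^ j}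
  {hπ : Function.Surjective π}

include hdeg hq in
/-- both Gauss valuations are unramified over `K1` on `G1`-fixed functions (at `∞`). -/
theorem hscal_infty_G1 (ζ : Qbar) (f : FL Qbar (M * q)) (hf : f ≠ 0)
    (hfix : IsFixed (G1Act P ζ (M * q)) f) :
    ∃ c : Qbar, c ≠ 0 ∧ IsFixedK (G1Act P ζ (M * q)) c ∧
      (valInfty P π M q hrk hπ hqM).valuation (c • f) = 1 :=
  scal_fixed_infty_semilinear P π M q hdeg hq hqM hrk hπ (G1 P ζ : Set Γℚ) f hf hfix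

/-- both Gauss valuations are unramified over `K1` on `G1`-fixed functions (at `0`). -/
theorem hscal_zero_G1 (ζ : Qbar) (f : FL Qbar (M * q)) (hf : f ≠ 0)
    (hfix : IsFixed (G1Act P ζ (M * q)) f) :
    ∃ c : Qbar, c ≠ 0 ∧ IsFixedK (G1Act P ζ (M * q)) c ∧
      (valZero P π M q hdeg hq hqM hrk hπ).valuation (c • f) = 1 :=
  scal_fixed_zero_semilinear P π M q hdeg hq hqM hrk hπ (G1 P ζ : Set Γℚ) f hf hfix

/-- **`FixData2` (of `S33x/H1/LatticeFixed2`) at level `M q`** for the coefficientwise action of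
`G1 = {τ ∈ I : τ ζ = ζ}`, `ζ` a primitive `q`-th root of unity. -/
theorem fixData2_G1 (H : ResidueFacts P π M q hdeg hq hqM hrk hπ) (hA : P.LiesOverPrime q)
    {ζ : Qbar} (hζ : IsPrimitiveRoot ζ q) :
    Fermat.Agent.S33x.H1.LatticeFixed2.FixData2 (redSetup2 H hA) (G1Act P ζ (M * q)) :=
  fixData2_twoVal_G1 (G1Act P ζ (M * q)) (redSetup2 H hA) hq hA hζ
    (G1Act_baseAut P ζ (M * q)) (G1Act_baseAut' P ζ (M * q))
    (hscal_infty_G1 (hdeg := hdeg) (hq := hq) ζ) (hscal_zero_G1 ζ)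

/-- **`FixData2` (of `S33x/W/LatticeFixed2`) at level `M q`** for the coefficientwise action of
`G1`. -/
theorem fixData2W_G1 (H : ResidueFacts P π M q hdeg hq hqM hrk hπ) (hA : P.LiesOverPrime q)
    {ζ : Qbar} (hζ : IsPrimitiveRoot ζ q) :
    Fermat.Agent.S33x.W.LatticeFixed2.FixData2 (redSetup2 H hA) (G1Act P ζ (M * q)) :=
  fixData2W_twoVal_G1 (G1Act P ζ (M * q)) (redSetup2 H hA) hq hA hζ
    (G1Act_baseAut P ζ (M * q)) (G1Act_baseAut' P ζ (M * q))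
    (hscal_infty_G1 (hdeg := hdeg) (hq := hq) ζ) (hscal_zero_G1 ζ)

end Level

end Fermat.Agent.S40x.W.G1
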