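/-
P-S44/S40, leaf (W-G1), part 2 (helper3): the Cech direct sums and `SatData` over `O₁ = P^{G1}`.

`G1 = {τ ∈ I : τ ζ = ζ}` (`S40x/W/G1`), `Γ₁ = G1Act P ζ (M q)` its coefficientwise action on the
function field of level `M q`, `W₁ = FixedDecomp.fixedSubring Γ₁` (`= O₁`, the valuation ring of
`K₁ = K₀(ζ)`), `ϖ₁ = ζ - 1 ∈ W₁`.

* `ctxGal_mono`, `ctxGal_G1` : `CtxGal` is antitone in the set, hence holds for `Γ₁`;
* `piW`, `piW_ne_zero`, `piW_pow_dvd_natCast` (`ϖ₁ ^ (p-1) ∣ p` in `W₁` — the hypothesis `hπp` of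
  `DepthB.exists_const_of_pow`), `piW_dvd_of_mem_nonunits` (`ϖ₁` generates the maximal ideal of `W₁`);
* `exists_directSum_G1_of_directSum` (generic bundle) : the decomposition over `W₁` from the
  `A`-level decomposition with inertia-fixed `aᵢ`;
* `exists_directSum_G1_Mq` : the CONCRETE statement at level `M q`: `b₁`, `g`, inertia-fixed `aᵢ`,
  the three decompositions (over `P`, over `W₀ = P^I`, over `W₁ = P^{G1}`) with the SAME `aᵢ`;
* `satData_W1` : `SatData` over `W₁` at `ϖ₁` (the hypothesis `H` of `DepthB.exists_const_of_pow`).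
-/
import Fermat.Agent.S33x.W.InstMqFixedB
import Fermat.Agent.S40x.W.G1

set_option autoImplicit false
set_option linter.style.haveILetI false
set_option linter.unusedSectionVars false
set_option linter.unusedVariables false

noncomputable section

namespace Fermat.Agent.S40x.W.G1Ctx

open AlgebraicCurve Module IntermediateField IsLocalRing
open Fermat.Agent.Gateway.C0 Fermat.Agent.S34x.C0two Fermat.Agent.S34x.Lattice2
open Fermat.Agent.S33x.Cech.CtxMq Fermat.Agent.S33x.H1.InstC1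
open Fermat.Agent.S33x.H1.FixedDecomp
open Fermat.Agent.S33x.Cech Fermat.Agent.S33x.Cech.OfDirectSum
open Fermat.Agent.S19x.Geo.LatticeFixed (IsFixed IsFixedK)
open Fermat.Agent.S33x.W.InstW (fixedAlg)
open Fermat.Agent.S40x.W.G1

/-! ### `CtxGal` is antitone -/

section Mono

variable {K : Type*} [Field K] {A : ValuationSubring K} {F : Type*} [Field F] [Algebra K F]
  {S : SmallRing F} {k : Type*} [Field k] {E : Type*} [Field E] [Algebra k E]
  {R : RedSetup2 A S k (E × E)} {C : ChartCoord R}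

theorem ctxGal_mono {G G' : Set (SemilinearAut K F)} (hGG : G' ⊆ G) (hG : CtxGal R C G) :
    CtxGal R C G' :=
  ⟨fun g hg => hG.smul_t g (hGG hg), fun g hg => hG.smul_mem g (hGG hg),
    fun g hg f hf => hG.res_smul g (hGG hg) f hf⟩

end Mono

/-! ### The uniformiser of `W₁` -/

section Unif

local notation "Qbar" => AlgebraicClosure ℚ

variable {P : ValuationSubring Qbar} {p : ℕ} {ζ : Qbar} {F : Type*} [Field F] [Algebra Qbar F]
  {Γ : Set (SemilinearAut Qbar F)}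

/-- `ϖ₁ = ζ - 1` as an element of `W₁ = P^Γ`, for any `Γ` with base automorphisms in `G1 P ζ`. -/
def piW (hp : p.Prime) (hP : P.LiesOverPrime p) (hζ : IsPrimitiveRoot ζ p)
    (hΓ : ∀ s ∈ Γ, ∃ σ ∈ G1 P ζ, ∀ c : Qbar, SemilinearAut.baseAut s c = σ c) :
    fixedSubring (A := P) Γ :=
  ⟨⟨ζ - 1, P.nonunits_subset (sub_one_mem_nonunits hp hP hζ)⟩, fun s hs => by
    obtain ⟨σ, hσ, hσs⟩ := hΓ s hs
    show SemilinearAut.baseAut s (ζ - 1) = ζ - 1
    rw [hσs, map_sub, map_one, hσ.2]⟩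

variable (hp : p.Prime) (hP : P.LiesOverPrime p) (hζ : IsPrimitiveRoot ζ p)
  (hΓ : ∀ s ∈ Γ, ∃ σ ∈ G1 P ζ, ∀ c : Qbar, SemilinearAut.baseAut s c = σ c)

@[simp] theorem coe_piW : (((piW hp hP hζ hΓ : fixedSubring (A := P) Γ) : P) : Qbar) = ζ - 1 := rfl

theorem piW_ne_zero : piW hp hP hζ hΓ ≠ 0 := by
  intro h
  have h1 := congrArg (fun w : fixedSubring (A := P) Γ => ((w : P) : Qbar)) h
  exact sub_one_ne_zero hp hζ h1

/-- **`ϖ₁ ^ (p - 1) ∣ p` in `W₁`** (hypothesis `hπp` of `DepthB.exists_const_of_pow`). -/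
theorem piW_pow_dvd_natCast :
    piW hp hP hζ hΓ ^ (p - 1) ∣ ((p : ℕ) : fixedSubring (A := P) Γ) := by
  obtain ⟨z, hz, hpz⟩ := exists_natCast_eq_mul_sub_one_pow hp hζ (P := P)
  have hπ0 : (ζ - 1) ^ (p - 1) ≠ 0 := pow_ne_zero _ (sub_one_ne_zero hp hζ)
  have hzfix : IsFixedK Γ z := by
    intro s hs
    obtain ⟨σ, hσ, hσs⟩ := hΓ s hs
    rw [hσs]
    have h1 : σ ((p : ℕ) : Qbar) = σ z * (ζ - 1) ^ (p - 1) := by
      conv_lhs => rw [hpz]
      rw [map_mul, map_pow, map_sub, map_one, hσ.2]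
    rw [map_natCast, hpz] at h1
    exact (mul_right_cancel₀ hπ0 h1).symm
  refine ⟨⟨⟨z, hz⟩, hzfix⟩, ?_⟩
  apply Subtype.ext
  apply Subtype.ext
  show ((p : ℕ) : Qbar) = (ζ - 1) ^ (p - 1) * z
  rw [hpz, mul_comm]

/-- **`ϖ₁` generates the maximal ideal of `W₁`**: every non-unit of `P` lying in `W₁` is a
`W₁`-multiple of `ϖ₁` (needs that every element of `G1 P ζ` is a base automorphism of `Γ`). -/
theorem piW_dvd_of_mem_nonunits
    (hΓ' : ∀ σ ∈ G1 P ζ, ∃ s ∈ Γ, ∀ c : Qbar, SemilinearAut.baseAut s c = σ c)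
    (w : fixedSubring (A := P) Γ) (hw : ((w : P) : Qbar) ∈ P.nonunits) :
    piW hp hP hζ hΓ ∣ w := by
  obtain ⟨d, hd, hdfix, hcd⟩ := exists_eq_sub_one_mul_of_fixed hp hP hζ hw (fun σ hσ => by
    obtain ⟨s, hs, hσs⟩ := hΓ' σ hσ
    rw [← hσs]
    exact w.2 s hs)
  refine ⟨⟨⟨d, hd⟩, fun s hs => ?_⟩, ?_⟩
  · obtain ⟨σ, hσ, hσs⟩ := hΓ s hs
    show SemilinearAut.baseAut s d = d
    rw [hσs]
    exact hdfix σ hσ
  · apply Subtype.ext
    apply Subtype.ext
    exact hcd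

end Unif

/-! ### The generic bundle -/

section Bundle

variable {K : Type*} [Field K] [IsAlgClosed K] [CharZero K] {A : ValuationSubring K}
  {F : Type*} [Field F] [Algebra K F] {S : SmallRing F}
  {k : Type*} [Field k] [IsAlgClosed k] {E : Type*} [Field E] [Algebra k E]
  {R : RedSetup2 A S k (E × E)} {C : ChartCoord R} {p q : ℕ} {x : E} {Dt : Divisor K F}
  (h : Ctx R C p q x Dt) {Γ Γ' : Set (SemilinearAut K F)} (hG : CtxGal R C Γ)

include h hG in
/-- the decomposition over `W' = A^Γ'` for a subset `Γ' ⊆ Γ`, from the `A`-level decomposition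
with `Γ`-fixed `aᵢ`. -/
theorem directSum_fixed_of_subset (hGG : Γ' ⊆ Γ)
    (hD' : Fermat.Agent.S33x.H1.LatticeFixed2.FixData2 R Γ')
    (hF' : Submodule.span K {f : F | IsFixed Γ' f} = ⊤) {g b₁ : ℕ} {a : Fin g → F}
    (ha : ∀ i, a i ∈ Lam C b₁ b₁) (hafix : ∀ i, IsFixed Γ (a i))
    (H : DirectSum (Fermat.Agent.S33x.H1.InstC4.BxAlg C) (Fermat.Agent.S33x.H1.InstC4.BooAlg C)
      (Fermat.Agent.S33x.H1.InstC4.BzeroAlg C) a) :
    DirectSum (fixedAlg Γ' (Fermat.Agent.S33x.H1.InstC4.BxAlg C))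
      (fixedAlg Γ' (Fermat.Agent.S33x.H1.InstC4.BooAlg C))
      (fixedAlg Γ' (Fermat.Agent.S33x.H1.InstC4.BzeroAlg C)) a :=
  Fermat.Agent.S33x.W.InstMqFixedB.directSum_fixed_of_directSum h (ctxGal_mono hGG hG) hD' hF' ha
    (fun i s hs => hafix i s (hGG hs)) H

end Bundle

/-! ### `SatData` over `W₁` -/

section Sat

variable {K : Type*} [Field K] {A : ValuationSubring K} {F : Type*} [Field F] [Algebra K F]
  {Γ : Set (SemilinearAut K F)} {Bx Boo B0 : Subalgebra A F} {g : ℕ} {a : Fin g → F}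

instance : FaithfulSMul (fixedSubring (A := A) Γ) F := by
  refine ⟨fun {w w'} hww => ?_⟩
  have h1 := hww 1
  rw [fixedSubring_smul_eq, fixedSubring_smul_eq, Algebra.smul_def, Algebra.smul_def, mul_one,
    mul_one] at h1
  exact Subtype.ext (Subtype.ext ((algebraMap K F).injective h1))

/-- **`SatData` over `W = A^Γ`** at every nonzero `ϖ ∈ W`, from the decomposition over `W`
(the hypothesis `H` of `DepthB.exists_const_of_pow`). -/
theorem satData_fixed
    (HW : DirectSum (fixedAlg Γ Bx) (fixedAlg Γ Boo) (fixedAlg Γ B0) a)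
    {ϖ : fixedSubring (A := A) Γ} (hϖ : ϖ ≠ 0) :
    SatData (ooIn (fixedAlg Γ Bx) (fixedAlg Γ Boo)) (zeroIn (fixedAlg Γ Bx) (fixedAlg Γ B0))
      (aIn HW) ϖ :=
  OfDirectSum.satData HW hϖ

end Sat


/-! ### The concrete level `M q` over `Qbar` -/

section Concrete

open ModularCurve
open Fermat.Agent.Gateway.Hecke Fermat.Agent.Gateway.ESC
open Fermat.Agent.Gateway.Red Fermat.Agent.Gateway.GoodRed
open Fermat.Agent.Gateway.GoodRed.ConjFamily
open Fermat.Agent.S34x.TwoVal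
open Fermat.Agent.S34x.Inst.L2 Fermat.Agent.S34x.Inst.IsL2Inst
open Fermat.Agent.S34x.Inst.RedSetupInst Fermat.Agent.S34x.Inst.ElementYRed
open Fermat.Agent.S34x.Inst.ElementYInt Fermat.Agent.S34x.Inst.Charts
open Fermat.Agent.S34x.Inst Fermat.Agent.S34x.Inst.TheoremBMq
open Fermat.Agent.S56x.Flat.InertiaField
open Fermat.Agent.S33x.H1.FixData2Final
open Fermat.Agent.S33x.W.InstMqFixedB (GamMq)

attribute [-instance] IsScalarTower.of_algHom

local notation "Qbar" => AlgebraicClosure ℚ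

variable {P : ValuationSubring Qbar} {k : Type} [Field k] {π : P →+* k} [IsAlgClosed k]
variable {M q : ℕ} [NeZero M] [NeZero q] [Fact q.Prime] [CharP k q]
variable {hdeg : finrankAlong Qbar (heckeAlphaBar Qbar M q) = q + 1} {hq : q.Prime}
  {hqM : ¬ q ∣ M}
variable {hrk : ∀ x ∈ maximalIdeal P, ∀ c : P, c ≠ 0 → ∃ j : ℕ, c ∣ x ^ j}
  {hπ : Function.Surjective π}
variable (H : ResidueFacts P π M q hdeg hq hqM hrk hπ) (hA : P.LiesOverPrime q)
  (x : LaurentSeries ℤ) (hx : coeffMap (Int.castRingHom Qbar) x ∈ FBar Qbar M)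
  (Hx : GoodLevelFactsT P π M q hπ hqM (tInt M x hx))

theorem G1Act_subset_GamMq (P : ValuationSubring Qbar) (ζ : Qbar) (M q : ℕ) :
    G1Act P ζ (M * q) ⊆ GamMq P M q := by
  rintro _ ⟨σ, hσ, rfl⟩
  exact ⟨σ, hσ.1, rfl⟩

include Hx in
/-- **`G1`** acts on the concrete context: it fixes `t = α t'`, preserves `O_∞ ⊓ O_0` and acts
trivially on the reduction. -/
theorem ctxGal_G1 (ζ : Qbar) (C : ChartCoord (redSetup2 H hA)) (hCt : C.t = tA M q x hx) :
    CtxGal (redSetup2 H hA) C (G1Act P ζ (M * q)) := by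
  haveI : Algebra.IsAlgebraic ℚ Qbar := AlgebraicClosure.isAlgebraic ℚ
  exact ctxGal_mono (G1Act_subset_GamMq P ζ M q) (ctxGal_inertia H hA x hx Hx C hCt)

include Hx hA in
/-- **The three Cech direct sums at the concrete level `M q`, `L = Qbar`**, for the chart rings of
`H1/InstC4`: over `P`, over `W₀ = P^I` and over `W₁ = P^{G1}`, with the SAME inertia-fixed `aᵢ`. -/
theorem exists_directSum_G1_Mq [PerfectRing k q] (C : ChartCoord (redSetup2 H hA))
    (hCt : C.t = tA M q x hx) (hxk : tbar k x ≠ 0) (hY : YFacts M q x hx)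
    {ζ : Qbar} (hζ : IsPrimitiveRoot ζ q) :
    ∃ (b₁ g : ℕ) (a : Fin g → FL Qbar (M * q)), (∀ i, a i ∈ Lam C b₁ b₁) ∧
      (∀ i, IsFixed (GamMq P M q) (a i)) ∧
      DirectSum (Fermat.Agent.S33x.H1.InstC4.BxAlg C) (Fermat.Agent.S33x.H1.InstC4.BooAlg C)
        (Fermat.Agent.S33x.H1.InstC4.BzeroAlg C) a ∧
      DirectSum (fixedAlg (GamMq P M q) (Fermat.Agent.S33x.H1.InstC4.BxAlg C))
        (fixedAlg (GamMq P M q) (Fermat.Agent.S33x.H1.InstC4.BooAlg C))
        (fixedAlg (GamMq P M q) (Fermat.Agent.S33x.H1.InstC4.BzeroAlg C)) a ∧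
      DirectSum (fixedAlg (G1Act P ζ (M * q)) (Fermat.Agent.S33x.H1.InstC4.BxAlg C))
        (fixedAlg (G1Act P ζ (M * q)) (Fermat.Agent.S33x.H1.InstC4.BooAlg C))
        (fixedAlg (G1Act P ζ (M * q)) (Fermat.Agent.S33x.H1.InstC4.BzeroAlg C)) a := by
  haveI : Algebra.IsAlgebraic ℚ Qbar := AlgebraicClosure.isAlgebraic ℚ
  haveI : CharZero Qbar := algebraRat.charZero Qbar
  have ht : Transcendental Qbar C.t := by
    rw [hCt]
    exact Charts.transcendental_tα Qbar M q Hx.trans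
  haveI hfin : FiniteDimensional Qbar⟮C.t⟯ (FL Qbar (M * q)) := by
    rw [hCt]
    exact finiteDimensional_tA x hx Hx
  have hctx := ctx_of_chart H hA x hx Hx C hCt hxk hY (Dt := Charts.divT ht) (Charts.divT_apply ht)
  have hgal := ctxGal_inertia H hA x hx Hx C hCt
  obtain ⟨b₁, g, a, ha, hafix, Hd, HW⟩ :=
    Fermat.Agent.S33x.W.InstMqFixedB.exists_directSum_both hctx hgal
      (fixData2_setOf H hA) (span_fixed_setOf P (M * q))
  refine ⟨b₁, g, a, ha, hafix, Hd, HW, ?_⟩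
  exact directSum_fixed_of_subset hctx hgal (G1Act_subset_GamMq P ζ M q)
    (fixData2_G1 H hA hζ) (span_fixed_G1Act P ζ (M * q)) ha hafix Hd

end Concrete

end Fermat.Agent.S40x.W.G1Ctx
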