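/-
P-S44/S40, AS → ET seam (flag F3 of red-team note 2627), part K (helper3):
`O₁ = ⊕_{i < p-1} O₀ (ζ - 1)^i`.

`P` a valuation subring of `Qbar` over `p`, `I` its inertia group, `G1 = {τ ∈ I : τ ζ = ζ}`
(`S40x/W/G1`), `π = ζ - 1`.

* `exists_poly_of_fixedG1` : a `G1`-fixed `c ∈ Qbar` is `g(ζ - 1)` for a polynomial `g` of degree
  `< #(inertia conjugates of ζ) ≤ p - 1` with inertia-fixed coefficients (Lagrange interpolation
  through the inertia conjugates; no Galois correspondence);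
* `exists_decomp_of_fixedG1` (**K**) : `c = ∑_{i < p-1} (ζ - 1)^i sᵢ`, `sᵢ` inertia-fixed;
* `mem_nonunits_of_sum_mem` : if `bᵢ ∈ P` are inertia-fixed and `∑_{i<p-1} π^i bᵢ ∈ π^(p-1) P`
  then every `bᵢ` is a non-unit;
* `exists_pow_mul_mem` : an inertia-fixed element is `p^{-m}` times an element of `P`;
* `mem_of_sum_mem` (**K-int**) : if `∑_{i<p-1} π^i sᵢ ∈ P`, `sᵢ` inertia-fixed, then `sᵢ ∈ P`;
* `exists_decomp_of_fixedG1_mem` : (**K**) + (**K-int**): `W₁ = ⊕_{i<p-1} W₀ π^i`.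
-/
import Mathlib
import Fermat.Agent.S40x.W.G1Ctx

set_option autoImplicit false
set_option linter.unusedSectionVars false
set_option linter.unusedVariables false
set_option linter.style.haveILetI false

noncomputable section

namespace Fermat.Agent.S40x.W.G1Decomp

open scoped Pointwise
open IsLocalRing Polynomial
open Fermat.Agent.S56x.Hens Fermat.Agent.S56x.Flat.InertiaField Fermat.Agent.S19x.Hens
  Fermat.Agent.S19x.Hens.InertiaResidue
open Fermat.Agent.S40x.W.G1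

local notation "Qbar" => AlgebraicClosure ℚ
local notation "Γℚ" => (AlgebraicClosure ℚ ≃ₐ[ℚ] AlgebraicClosure ℚ)

variable {P : ValuationSubring Qbar}

/-! ### (K): the field-level decomposition -/

section K

variable {p : ℕ} (hp : p.Prime) {ζ : Qbar} (hζ : IsPrimitiveRoot ζ p)

include hp hζ in
/-- A `G1`-fixed element is the value at `ζ - 1` of a polynomial of degree `< #conjSet` with
inertia-fixed coefficients. -/
theorem exists_poly_of_fixedG1 {c : Qbar} (hfix : ∀ t ∈ G1 P ζ, t c = c) :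
    ∃ g : Qbar[X], g.degree < (conjSet P p ζ).card ∧
      (∀ ρ ∈ P.inertiaSubgroupIn ℚ, g.map (ρ : Qbar →+* Qbar) = g) ∧ g.eval (ζ - 1) = c := by
  classical
  set T := conjSet P p ζ with hT
  set v : Qbar → Qbar := fun t => t - 1 with hv
  set r : Qbar → Qbar := fun t => lift P ζ t c with hr
  have hvs : Set.InjOn v (T : Set Qbar) := fun a _ b _ hab => sub_left_injective hab
  refine ⟨Lagrange.interpolate T v r, Lagrange.degree_interpolate_lt _ hvs, ?_, ?_⟩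
  · intro ρ hρ
    apply Lagrange.eq_interpolate_of_eval_eq _ hvs
    · exact lt_of_le_of_lt (degree_map_le) (Lagrange.degree_interpolate_lt _ hvs)
    · intro t ht
      -- `t = ρ t'` with `t' ∈ T`
      obtain ⟨σ, hσ, rfl⟩ := (mem_conjSet hp hζ).mp ht
      set t' := ρ⁻¹ (σ ζ) with ht'
      have ht'T : t' ∈ T := (mem_conjSet hp hζ).mpr ⟨ρ⁻¹ * σ, mul_mem (inv_mem hρ) hσ, rfl⟩
      have hρt' : ρ t' = σ ζ := by
        show (ρ * ρ⁻¹) (σ ζ) = σ ζ
        rw [mul_inv_cancel]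
        rfl
      have h1 : v (σ ζ) = (ρ : Qbar →+* Qbar) (v t') := by
        show σ ζ - 1 = ρ (t' - 1)
        rw [map_sub, map_one, hρt']
      rw [h1, eval_map, eval₂_at_apply, Lagrange.eval_interpolate_at_node _ hvs ht'T]
      -- `ρ (lift t' c) = lift (ρ t') c`
      obtain ⟨h2, h3⟩ := lift_spec (P := P) (ζ := ζ) ((mem_conjSet hp hζ).mp ht'T)
      have h4 := apply_eq_lift_apply hfix (σ := ρ * lift P ζ t') (mul_mem hρ h2)
      have h5 : (ρ * lift P ζ t') ζ = σ ζ := by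
        show ρ (lift P ζ t' ζ) = σ ζ
        rw [h3, hρt']
      rw [h5] at h4
      exact h4
  · have hζT : ζ ∈ T := zeta_mem_conjSet hp hζ
    have h1 := Lagrange.eval_interpolate_at_node r hvs hζT
    have h2 : v ζ = ζ - 1 := rfl
    rw [h2] at h1
    rw [h1]
    obtain ⟨h3, h4⟩ := lift_spec (P := P) (ζ := ζ) ((mem_conjSet hp hζ).mp hζT)
    exact hfix _ ⟨h3, h4⟩

include hp hζ in
/-- **(K)**: a `G1`-fixed element of `Qbar` is `∑_{i < p-1} (ζ - 1)^i sᵢ` with inertia-fixed `sᵢ`: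
`K₁ = K₀(ζ)` is spanned over `K₀` by the powers `(ζ - 1)^i`, `i < p - 1`. -/
theorem exists_decomp_of_fixedG1 {c : Qbar} (hfix : ∀ t ∈ G1 P ζ, t c = c) :
    ∃ s : ℕ → Qbar, (∀ i, ∀ t ∈ P.inertiaSubgroupIn ℚ, t (s i) = s i) ∧
      c = ∑ i ∈ Finset.range (p - 1), (ζ - 1) ^ i * s i := by
  obtain ⟨g, hdeg, hmap, hev⟩ := exists_poly_of_fixedG1 hp hζ hfix (P := P)
  refine ⟨fun i => g.coeff i, fun i t ht => ?_, ?_⟩
  · have h1 := congrArg (fun q : Qbar[X] => q.coeff i) (hmap t ht)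
    simpa [coeff_map] using h1
  · have hcard : (conjSet P p ζ).card ≤ p - 1 := card_conjSet_le hp
    have hnat : g.natDegree < p - 1 := by
      by_cases hg0 : g = 0
      · rw [hg0, natDegree_zero]
        have := hp.two_le
        omega
      · have h1 := (natDegree_lt_iff_degree_lt hg0).mpr hdeg
        omega
    rw [← hev, eval_eq_sum_range' hnat]
    exact Finset.sum_congr rfl fun i _ => mul_comm _ _

end K


/-! ### (K-int): integrality of the coefficients -/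

section KInt

variable {p : ℕ} (hp : p.Prime) (hP : P.LiesOverPrime p) {ζ : Qbar} (hζ : IsPrimitiveRoot ζ p)

include hp hζ in
/-- `p ∈ (ζ - 1)^k P` for `k ≤ p - 1`. -/
theorem exists_natCast_eq_pow_mul {k : ℕ} (hk : k ≤ p - 1) :
    ∃ y ∈ P, (p : Qbar) = (ζ - 1) ^ k * y := by
  obtain ⟨z, hz, hpz⟩ := exists_natCast_eq_mul_sub_one_pow hp hζ (P := P)
  have hζP : ζ - 1 ∈ P := sub_mem (zeta_mem hp hζ) (one_mem P)
  refine ⟨(ζ - 1) ^ (p - 1 - k) * z, P.mul_mem _ _ (pow_mem hζP _) hz, ?_⟩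
  rw [hpz, ← mul_assoc, ← pow_add, Nat.add_sub_cancel' hk, mul_comm]

include hp hP hζ in
/-- **Peeling lemma**: if `bᵢ ∈ P` (`i < n ≤ p - 1`) are inertia-fixed and
`∑_{i<n} π^i bᵢ ∈ π^n P`, then every `bᵢ` is a non-unit. -/
theorem mem_nonunits_of_sum_mem (n : ℕ) (hn : n ≤ p - 1) :
    ∀ (b : ℕ → Qbar), (∀ i < n, b i ∈ P) →
      (∀ i < n, ∀ t ∈ P.inertiaSubgroupIn ℚ, t (b i) = b i) →
      ∀ y ∈ P, ∑ i ∈ Finset.range n, (ζ - 1) ^ i * b i = (ζ - 1) ^ n * y →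
      ∀ i < n, b i ∈ P.nonunits := by
  have hπm : ζ - 1 ∈ P.nonunits := sub_one_mem_nonunits hp hP hζ
  have hπP : ζ - 1 ∈ P := P.nonunits_subset hπm
  have hπ0 : ζ - 1 ≠ 0 := sub_one_ne_zero hp hζ
  induction n with
  | zero => intro b _ _ y _ _ i hi; exact absurd hi (Nat.not_lt_zero i)
  | succ n ih =>
    intro b hbP hbfix y hy hsum
    rw [Finset.sum_range_succ', pow_zero, one_mul] at hsum
    -- `b 0 ∈ π P`
    have hb0 : b 0 = (ζ - 1) * ((ζ - 1) ^ n * y - ∑ i ∈ Finset.range n, (ζ - 1) ^ i * b (i + 1)) := by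
      have h1 : ∑ i ∈ Finset.range n, (ζ - 1) ^ (i + 1) * b (i + 1) =
          (ζ - 1) * ∑ i ∈ Finset.range n, (ζ - 1) ^ i * b (i + 1) := by
        rw [Finset.mul_sum]
        refine Finset.sum_congr rfl fun i _ => ?_
        rw [pow_succ]
        ring
      rw [h1] at hsum
      have h2 : b 0 = (ζ - 1) ^ (n + 1) * y - (ζ - 1) * ∑ i ∈ Finset.range n, (ζ - 1) ^ i * b (i + 1) :=
        eq_sub_of_add_eq' hsum
      rw [h2, pow_succ]
      ring
    have hinner : (ζ - 1) ^ n * y - ∑ i ∈ Finset.range n, (ζ - 1) ^ i * b (i + 1) ∈ P := by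
      refine sub_mem (P.mul_mem _ _ (pow_mem hπP n) hy) (sum_mem fun i hi => ?_)
      exact P.mul_mem _ _ (pow_mem hπP i)
        (hbP (i + 1) (Nat.succ_lt_succ (Finset.mem_range.mp hi)))
    have hb0m : b 0 ∈ P.nonunits := by
      rw [hb0]
      exact mul_mem_nonunits_right P hπm hinner
    -- `b 0 = π^(n+1) y₀`
    obtain ⟨d, hd, hbd⟩ := exists_eq_natCast_mul_of_fixed P hp hP hb0m (hbfix 0 (Nat.succ_pos n))
    obtain ⟨w, hw, hpw⟩ := exists_natCast_eq_pow_mul hp hζ (P := P) hn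
    -- the tail
    have htail : ∑ i ∈ Finset.range n, (ζ - 1) ^ i * b (i + 1) = (ζ - 1) ^ n * (y - w * d) := by
      have h1 : ∑ i ∈ Finset.range n, (ζ - 1) ^ (i + 1) * b (i + 1) =
          (ζ - 1) * ∑ i ∈ Finset.range n, (ζ - 1) ^ i * b (i + 1) := by
        rw [Finset.mul_sum]
        refine Finset.sum_congr rfl fun i _ => ?_
        rw [pow_succ]
        ring
      rw [h1, hbd, hpw] at hsum
      apply mul_left_cancel₀ hπ0
      have h3 : (ζ - 1) * ∑ i ∈ Finset.range n, (ζ - 1) ^ i * b (i + 1) =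
          (ζ - 1) ^ (n + 1) * y - (ζ - 1) ^ (n + 1) * w * d := eq_sub_of_add_eq hsum
      rw [h3, pow_succ]
      ring
    have hrec := ih (Nat.le_of_succ_le hn) (fun i => b (i + 1))
      (fun i hi => hbP (i + 1) (Nat.succ_lt_succ hi))
      (fun i hi => hbfix (i + 1) (Nat.succ_lt_succ hi))
      (y - w * d) (sub_mem hy (P.mul_mem _ _ hw hd.1)) htail
    intro i hi
    rcases Nat.eq_zero_or_pos i with rfl | hpos
    · exact hb0m
    · obtain ⟨j, rfl⟩ := Nat.exists_eq_succ_of_ne_zero hpos.ne'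
      exact hrec j (Nat.lt_of_succ_lt_succ hi)

include hp hP in
/-- an inertia-fixed element of `Qbar` is `p^{-m}` times an element of `P`. -/
theorem exists_pow_mul_mem {s : Qbar} (hs : ∀ t ∈ P.inertiaSubgroupIn ℚ, t s = s) :
    ∃ m : ℕ, (p : Qbar) ^ m * s ∈ P := by
  classical
  have hp0 : (p : Qbar) ≠ 0 := Nat.cast_ne_zero.mpr hp.ne_zero
  rcases P.mem_or_inv_mem s with h | h
  · exact ⟨0, by rwa [pow_zero, one_mul]⟩
  by_cases hs0 : s = 0
  · exact ⟨0, by rw [hs0, mul_zero]; exact P.zero_mem⟩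
  have hinv0 : s⁻¹ ≠ 0 := inv_ne_zero hs0
  have hex : ∃ n : ℕ, ¬ ∃ d ∈ P, s⁻¹ = (p : Qbar) ^ n * d := by
    by_contra hcon
    have hall : ∀ n : ℕ, ∃ d ∈ P, s⁻¹ = (p : Qbar) ^ n * d :=
      fun n => by_contra fun hn => hcon ⟨n, hn⟩
    exact hinv0 (eq_zero_of_forall_pow_mul P hp hP s⁻¹ hall)
  have hn0 : Nat.find hex ≠ 0 := by
    intro h0
    apply Nat.find_spec hex
    rw [h0]
    exact ⟨s⁻¹, h, by rw [pow_zero, one_mul]⟩
  obtain ⟨m, hm⟩ := Nat.exists_eq_succ_of_ne_zero hn0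
  have h1 := Nat.find_min hex (m := m) (by rw [hm]; exact Nat.lt_succ_self m)
  obtain ⟨d, hd, hsd⟩ := not_not.mp h1
  have hd0 : d ≠ 0 := by
    rintro rfl
    rw [mul_zero] at hsd
    exact hinv0 hsd
  have hdfix : ∀ t ∈ P.inertiaSubgroupIn ℚ, t d = d := by
    intro t ht
    have h2 : t s⁻¹ = s⁻¹ := by rw [map_inv₀, hs t ht]
    rw [hsd, map_mul, map_pow, map_natCast] at h2
    exact mul_left_cancel₀ (pow_ne_zero m hp0) h2
  have hdu : d ∉ P.nonunits := by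
    intro hdm
    obtain ⟨d', hd', hdd'⟩ := exists_eq_natCast_mul_of_fixed P hp hP hdm hdfix
    apply Nat.find_spec hex
    rw [hm]
    refine ⟨d', hd'.1, ?_⟩
    rw [hsd, hdd', pow_succ]
    ring
  refine ⟨m, ?_⟩
  have h3 : (p : Qbar) ^ m * s = d⁻¹ := by
    have h4 : s = ((p : Qbar) ^ m * d)⁻¹ := by rw [← hsd, inv_inv]
    rw [h4, mul_inv, ← mul_assoc, mul_inv_cancel₀ (pow_ne_zero m hp0), one_mul]
  rw [h3]
  exact (inv_mem_of_notMem_nonunits P hd hdu).2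

include hp hP hζ in
/-- **(K-int)**: if `∑_{i<p-1} π^i sᵢ ∈ P` with inertia-fixed `sᵢ`, then every `sᵢ` lies in `P`:
the powers `π^i`, `i < p - 1`, are an `O₀`-basis of `O₁`. -/
theorem mem_of_sum_mem (s : ℕ → Qbar)
    (hsfix : ∀ i < p - 1, ∀ t ∈ P.inertiaSubgroupIn ℚ, t (s i) = s i)
    (hsum : ∑ i ∈ Finset.range (p - 1), (ζ - 1) ^ i * s i ∈ P) :
    ∀ i < p - 1, s i ∈ P := by
  have hp0 : (p : Qbar) ≠ 0 := Nat.cast_ne_zero.mpr hp.ne_zero
  -- the statement with a bound on the denominators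
  have key : ∀ m : ℕ, ∀ s : ℕ → Qbar,
      (∀ i < p - 1, ∀ t ∈ P.inertiaSubgroupIn ℚ, t (s i) = s i) →
      (∑ i ∈ Finset.range (p - 1), (ζ - 1) ^ i * s i ∈ P) →
      (∀ i < p - 1, (p : Qbar) ^ m * s i ∈ P) → ∀ i < p - 1, s i ∈ P := by
    intro m
    induction m with
    | zero =>
      intro s _ _ h i hi
      have := h i hi
      rwa [pow_zero, one_mul] at this
    | succ m ih =>
      intro s hsfix hsum hden
      apply ih s hsfix hsum
      -- `bᵢ = p^(m+1) sᵢ`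
      set b : ℕ → Qbar := fun i => (p : Qbar) ^ (m + 1) * s i with hb
      have hbfix : ∀ i < p - 1, ∀ t ∈ P.inertiaSubgroupIn ℚ, t (b i) = b i := by
        intro i hi t ht
        show t ((p : Qbar) ^ (m + 1) * s i) = (p : Qbar) ^ (m + 1) * s i
        rw [map_mul, map_pow, map_natCast, hsfix i hi t ht]
      obtain ⟨w, hw, hpw⟩ := exists_natCast_eq_pow_mul hp hζ (P := P) (le_refl (p - 1))
      have hbsum : ∑ i ∈ Finset.range (p - 1), (ζ - 1) ^ i * b i =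
          (ζ - 1) ^ (p - 1) *
            (w * ((p : Qbar) ^ m * ∑ i ∈ Finset.range (p - 1), (ζ - 1) ^ i * s i)) := by
        have h1 : ∑ i ∈ Finset.range (p - 1), (ζ - 1) ^ i * b i =
            (p : Qbar) ^ (m + 1) * ∑ i ∈ Finset.range (p - 1), (ζ - 1) ^ i * s i := by
          rw [Finset.mul_sum]
          refine Finset.sum_congr rfl fun i _ => ?_
          show (ζ - 1) ^ i * ((p : Qbar) ^ (m + 1) * s i) = _
          ring
        rw [h1, pow_succ]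
        nth_rewrite 2 [hpw]
        ring
      have hnon := mem_nonunits_of_sum_mem hp hP hζ (p - 1) (le_refl _) b hden hbfix _
        (P.mul_mem _ _ hw (P.mul_mem _ _ (pow_mem (natCast_mem P p) m) hsum)) hbsum
      intro i hi
      obtain ⟨d, hd, hbd⟩ := exists_eq_natCast_mul_of_fixed P hp hP (hnon i hi) (hbfix i hi)
      have h2 : (p : Qbar) ^ m * s i = d := by
        apply mul_left_cancel₀ hp0
        rw [← hbd]
        show (p : Qbar) * ((p : Qbar) ^ m * s i) = (p : Qbar) ^ (m + 1) * s i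
        rw [pow_succ]
        ring
      rw [h2]
      exact hd.1
  -- a common bound for the denominators
  have hex : ∀ i, ∃ m : ℕ, i < p - 1 → (p : Qbar) ^ m * s i ∈ P := by
    intro i
    by_cases hi : i < p - 1
    · obtain ⟨m, hm⟩ := exists_pow_mul_mem hp hP (hsfix i hi)
      exact ⟨m, fun _ => hm⟩
    · exact ⟨0, fun h => absurd h hi⟩
  choose mfun hmfun using hex
  set Mtot := ∑ i ∈ Finset.range (p - 1), mfun i with hMtot
  refine key Mtot s hsfix hsum fun i hi => ?_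
  have hle : mfun i ≤ Mtot :=
    Finset.single_le_sum (f := mfun) (fun _ _ => Nat.zero_le _) (Finset.mem_range.mpr hi)
  have h3 : (p : Qbar) ^ Mtot * s i = (p : Qbar) ^ (Mtot - mfun i) * ((p : Qbar) ^ mfun i * s i) := by
    rw [← mul_assoc, ← pow_add, Nat.sub_add_cancel hle]
  rw [h3]
  exact P.mul_mem _ _ (pow_mem (natCast_mem P p) _) (hmfun i hi)

include hp hP hζ in
/-- **`W₁ = ⊕_{i<p-1} W₀ π^i`**: a `G1`-fixed element of `P` is `∑_{i<p-1} (ζ - 1)^i sᵢ` with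
`sᵢ ∈ inertiaInt P`. -/
theorem exists_decomp_of_fixedG1_mem {c : Qbar} (hc : c ∈ P) (hfix : ∀ t ∈ G1 P ζ, t c = c) :
    ∃ s : ℕ → Qbar, (∀ i, s i ∈ inertiaInt P) ∧
      c = ∑ i ∈ Finset.range (p - 1), (ζ - 1) ^ i * s i := by
  obtain ⟨s, hsfix, hcs⟩ := exists_decomp_of_fixedG1 hp hζ hfix (P := P)
  have hmem := mem_of_sum_mem hp hP hζ s (fun i _ => hsfix i) (hcs ▸ hc)
  refine ⟨fun i => if i < p - 1 then s i else 0, fun i => ?_, ?_⟩
  · by_cases hi : i < p - 1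
    · simp only [hi, if_true]
      exact ⟨hmem i hi, hsfix i⟩
    · simp only [hi, if_false]
      exact (inertiaInt P).zero_mem
  · rw [hcs]
    refine Finset.sum_congr rfl fun i hi => ?_
    dsimp only
    rw [if_pos (Finset.mem_range.mp hi)]

end KInt


/-! ### (V), (B): the function-level decomposition -/

section Functions

open AlgebraicCurve Module
open Fermat.Agent.S34x.C0two
open Fermat.Agent.S19x.Geo.LatticeFixed (IsFixed IsFixedK)
open Fermat.Agent.S33x.H1.LatticeFixed2 Fermat.Agent.S33x.H1.CechFixedB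
open Fermat.Agent.S33x.W.InstW (fixedAlg mem_fixedAlg)

variable {p : ℕ} (hp : p.Prime) (hP : P.LiesOverPrime p) {ζ : Qbar} (hζ : IsPrimitiveRoot ζ p)
variable {F : Type*} [Field F] [Algebra Qbar F] {S : SmallRing F}
  {k κ : Type*} [Field k] [CommRing κ] [Algebra k κ] {R : RedSetup2 P S k κ}
  {Γ Γ' : Set (SemilinearAut Qbar F)}

include hp hP hζ in
/-- **(V)**: for a subspace `V` with an inertia-fixed orthonormal frame, a `G1`-fixed element of
`V ∩ O` is `∑_{j<p-1} (ζ - 1)^j • f_j` with `f_j ∈ V ∩ O` inertia-fixed. -/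
theorem exists_decomp_of_frame (hsub : Γ' ⊆ Γ)
    (hΓ : ∀ s ∈ Γ, ∃ σ ∈ P.inertiaSubgroupIn ℚ, ∀ c : Qbar, SemilinearAut.baseAut s c = σ c)
    (hΓ' : ∀ σ ∈ G1 P ζ, ∃ s ∈ Γ', ∀ c : Qbar, SemilinearAut.baseAut s c = σ c)
    {V : Submodule Qbar F} {ι : Type*} [Fintype ι] {b : ι → F} (hb : FixedFrame2 R Γ V b)
    {v : F} (hvV : v ∈ V) (hvO : v ∈ S.O) (hvfix : IsFixed Γ' v) :
    ∃ f : ℕ → F, (∀ j, f j ∈ V ∧ f j ∈ S.O ∧ IsFixed Γ (f j)) ∧
      v = ∑ j ∈ Finset.range (p - 1), (ζ - 1) ^ j • f j := by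
  have hb' : FixedFrame2 R Γ' V b :=
    ⟨hb.mem_V, hb.mem_O, fun i s hs => hb.fixed i s (hsub hs), hb.res_indep, hb.span_eq⟩
  obtain ⟨c, hcfix, hvc⟩ := hb'.exists_fixed_coeff hvV hvO hvfix
  -- decompose the coefficients
  have hdec : ∀ i, ∃ s : ℕ → Qbar, (∀ j, s j ∈ inertiaInt P) ∧
      ((c i : P) : Qbar) = ∑ j ∈ Finset.range (p - 1), (ζ - 1) ^ j * s j := by
    intro i
    refine exists_decomp_of_fixedG1_mem hp hP hζ (c i).2 fun σ hσ => ?_
    obtain ⟨s, hs, hσs⟩ := hΓ' σ hσ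
    rw [← hσs]
    exact hcfix i s hs
  choose s hsmem hcs using hdec
  have hsfixK : ∀ i j, IsFixedK Γ (s i j) := by
    intro i j t ht
    obtain ⟨σ, hσ, hσt⟩ := hΓ t ht
    rw [hσt]
    exact (hsmem i j).2 σ hσ
  refine ⟨fun j => ∑ i, ((⟨s i j, (hsmem i j).1⟩ : P) : Qbar) • b i, fun j => ?_, ?_⟩
  · exact hb.sum_mem (fun i => (⟨s i j, (hsmem i j).1⟩ : P)) (fun i => hsfixK i j)
  · rw [hvc]
    simp_rw [hcs, Finset.sum_smul, Finset.smul_sum, mul_smul]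
    rw [Finset.sum_comm]

variable {L : ℕ → ℕ → Submodule Qbar F} {Bx Boo B0 : Subalgebra P F}

include hp hP hζ in
/-- **(B), core**: the decomposition inside `L a b ∩ O`. -/
theorem exists_decomp_of_mem_L (hsub : Γ' ⊆ Γ)
    (hΓ : ∀ s ∈ Γ, ∃ σ ∈ P.inertiaSubgroupIn ℚ, ∀ c : Qbar, SemilinearAut.baseAut s c = σ c)
    (hΓ' : ∀ σ ∈ G1 P ζ, ∃ s ∈ Γ', ∀ c : Qbar, SemilinearAut.baseAut s c = σ c)
    (hD : FixData2 R Γ) (hF : Submodule.span Qbar {f : F | IsFixed Γ f} = ⊤)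
    [∀ a b, FiniteDimensional Qbar (L a b)] (hcart : ∀ a b, (R.lat (L a b)).FG)
    (hstab : ∀ a b, ∀ s ∈ Γ, ∀ f ∈ L a b, s • f ∈ L a b)
    {a b : ℕ} {x : F} (hxL : x ∈ L a b) (hxO : x ∈ S.O) (hxfix : IsFixed Γ' x) :
    ∃ y : ℕ → F, (∀ j, y j ∈ L a b ∧ y j ∈ S.O ∧ IsFixed Γ (y j)) ∧
      x = ∑ j ∈ Finset.range (p - 1), (ζ - 1) ^ j • y j := by
  obtain ⟨fr, hfr⟩ := exists_fixedFrame2_of_stable hD hF (L a b) (hcart a b) (hstab a b)
  exact exists_decomp_of_frame hp hP hζ hsub hΓ hΓ' hfr hxL hxO hxfix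

include hp hP hζ in
/-- **(B)**: `Bx(O₁) = ∑_{j<p-1} π^j Bx(O₀)`, and the same for the two charts. -/
theorem exists_decomp_fixedAlg (hsub : Γ' ⊆ Γ)
    (hΓ : ∀ s ∈ Γ, ∃ σ ∈ P.inertiaSubgroupIn ℚ, ∀ c : Qbar, SemilinearAut.baseAut s c = σ c)
    (hΓ' : ∀ σ ∈ G1 P ζ, ∃ s ∈ Γ', ∀ c : Qbar, SemilinearAut.baseAut s c = σ c)
    (hD : FixData2 R Γ) (hF : Submodule.span Qbar {f : F | IsFixed Γ f} = ⊤)
    (hL : Family (S := S) L Bx Boo B0)
    [∀ a b, FiniteDimensional Qbar (L a b)] (hcart : ∀ a b, (R.lat (L a b)).FG)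
    (hstab : ∀ a b, ∀ s ∈ Γ, ∀ f ∈ L a b, s • f ∈ L a b) :
    (∀ x ∈ fixedAlg Γ' Bx, ∃ y : ℕ → F, (∀ j, y j ∈ fixedAlg Γ Bx) ∧
      x = ∑ j ∈ Finset.range (p - 1), (ζ - 1) ^ j • y j) ∧
    (∀ x ∈ fixedAlg Γ' Boo, ∃ y : ℕ → F, (∀ j, y j ∈ fixedAlg Γ Boo) ∧
      x = ∑ j ∈ Finset.range (p - 1), (ζ - 1) ^ j • y j) ∧
    (∀ x ∈ fixedAlg Γ' B0, ∃ y : ℕ → F, (∀ j, y j ∈ fixedAlg Γ B0) ∧
      x = ∑ j ∈ Finset.range (p - 1), (ζ - 1) ^ j • y j) := by
  refine ⟨fun x hx => ?_, fun x hx => ?_, fun x hx => ?_⟩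
  · obtain ⟨a, b, hxL, hxO⟩ := (hL.mem_Bx x).mp hx.1
    obtain ⟨y, hy, hxy⟩ := exists_decomp_of_mem_L hp hP hζ hsub hΓ hΓ' hD hF hcart hstab
      hxL hxO hx.2
    exact ⟨y, fun j => ⟨(hL.mem_Bx _).mpr ⟨a, b, (hy j).1, (hy j).2.1⟩, (hy j).2.2⟩, hxy⟩
  · obtain ⟨b, hxL, hxO⟩ := (hL.mem_Boo x).mp hx.1
    obtain ⟨y, hy, hxy⟩ := exists_decomp_of_mem_L hp hP hζ hsub hΓ hΓ' hD hF hcart hstab
      hxL hxO hx.2
    exact ⟨y, fun j => ⟨(hL.mem_Boo _).mpr ⟨b, (hy j).1, (hy j).2.1⟩, (hy j).2.2⟩, hxy⟩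
  · obtain ⟨a, hxL, hxO⟩ := (hL.mem_B0 x).mp hx.1
    obtain ⟨y, hy, hxy⟩ := exists_decomp_of_mem_L hp hP hζ hsub hΓ hΓ' hD hF hcart hstab
      hxL hxO hx.2
    exact ⟨y, fun j => ⟨(hL.mem_B0 _).mpr ⟨a, (hy j).1, (hy j).2.1⟩, (hy j).2.2⟩, hxy⟩

end Functions


/-! ### The chart rings of `H1/InstC4` -/

section Bundle

open AlgebraicCurve Module IntermediateField
open Fermat.Agent.Gateway.C0 Fermat.Agent.S34x.C0two Fermat.Agent.S34x.Lattice2
open Fermat.Agent.S33x.Cech.CtxMq Fermat.Agent.S33x.H1.InstC1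
open Fermat.Agent.S19x.Geo.LatticeFixed (IsFixed IsFixedK)
open Fermat.Agent.S33x.W.InstW (fixedAlg)

variable {p' : ℕ} (hp : p'.Prime) (hP : P.LiesOverPrime p') {ζ : Qbar}
  (hζ : IsPrimitiveRoot ζ p')
variable {F : Type*} [Field F] [Algebra Qbar F] {S : SmallRing F}
  {k : Type*} [Field k] [IsAlgClosed k] {E : Type*} [Field E] [Algebra k E]
  {R : RedSetup2 P S k (E × E)} {C : ChartCoord R} {p q : ℕ} {x : E} {Dt : Divisor Qbar F}
  (h : Ctx R C p q x Dt) {Γ Γ' : Set (SemilinearAut Qbar F)} (hG : CtxGal R C Γ)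

include hp hP hζ h hG in
/-- **(B) inside the context bundle**, chart rings of `H1/InstC4`:
`B(O₁) = ∑_{j<p-1} (ζ - 1)^j B(O₀)` for `B ∈ {BxAlg C, BooAlg C, BzeroAlg C}`. -/
theorem exists_decomp_chart (hsub : Γ' ⊆ Γ)
    (hΓ : ∀ s ∈ Γ, ∃ σ ∈ P.inertiaSubgroupIn ℚ, ∀ c : Qbar, SemilinearAut.baseAut s c = σ c)
    (hΓ' : ∀ σ ∈ G1 P ζ, ∃ s ∈ Γ', ∀ c : Qbar, SemilinearAut.baseAut s c = σ c)
    (hD : Fermat.Agent.S33x.H1.LatticeFixed2.FixData2 R Γ)
    (hF : Submodule.span Qbar {f : F | IsFixed Γ f} = ⊤) :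
    (∀ x ∈ fixedAlg Γ' (Fermat.Agent.S33x.H1.InstC4.BxAlg C), ∃ y : ℕ → F,
      (∀ j, y j ∈ fixedAlg Γ (Fermat.Agent.S33x.H1.InstC4.BxAlg C)) ∧
      x = ∑ j ∈ Finset.range (p' - 1), (ζ - 1) ^ j • y j) ∧
    (∀ x ∈ fixedAlg Γ' (Fermat.Agent.S33x.H1.InstC4.BooAlg C), ∃ y : ℕ → F,
      (∀ j, y j ∈ fixedAlg Γ (Fermat.Agent.S33x.H1.InstC4.BooAlg C)) ∧
      x = ∑ j ∈ Finset.range (p' - 1), (ζ - 1) ^ j • y j) ∧
    (∀ x ∈ fixedAlg Γ' (Fermat.Agent.S33x.H1.InstC4.BzeroAlg C), ∃ y : ℕ → F,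
      (∀ j, y j ∈ fixedAlg Γ (Fermat.Agent.S33x.H1.InstC4.BzeroAlg C)) ∧
      x = ∑ j ∈ Finset.range (p' - 1), (ζ - 1) ^ j • y j) := by
  haveI : IsAlgClosed Qbar := inferInstance
  haveI : CharZero Qbar := algebraRat.charZero Qbar
  haveI : ∀ a b, FiniteDimensional Qbar (C.LN a b) := fun a b =>
    Fermat.Agent.S33x.W.InstMqFixedB.finiteDimensional_LN h a b
  exact exists_decomp_fixedAlg hp hP hζ hsub hΓ hΓ' hD hF
    (Fermat.Agent.S33x.W.InstW.familyC C)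
    (fun a b => h.hcart _ (Fermat.Agent.S33x.W.InstMqFixedB.finiteDimensional_LN h a b))
    (fun a b => Fermat.Agent.S33x.H1.StableLN.stable_LN C hG.smul_t a b)

end Bundle

/-! ### The concrete level `M q` over `Qbar` -/

section Concrete

open ModularCurve AlgebraicCurve Module IntermediateField
open Fermat.Agent.Gateway.Hecke Fermat.Agent.Gateway.ESC
open Fermat.Agent.Gateway.Red Fermat.Agent.Gateway.GoodRed
open Fermat.Agent.Gateway.GoodRed.ConjFamily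
open Fermat.Agent.Gateway.C0 Fermat.Agent.S34x.C0two Fermat.Agent.S34x.Lattice2
open Fermat.Agent.S34x.TwoVal
open Fermat.Agent.S34x.Inst.L2 Fermat.Agent.S34x.Inst.IsL2Inst
open Fermat.Agent.S34x.Inst.RedSetupInst Fermat.Agent.S34x.Inst.ElementYRed
open Fermat.Agent.S34x.Inst.ElementYInt Fermat.Agent.S34x.Inst.Charts
open Fermat.Agent.S34x.Inst Fermat.Agent.S34x.Inst.TheoremBMq
open Fermat.Agent.S33x.Cech.CtxMq Fermat.Agent.S33x.H1.InstC1
open Fermat.Agent.S33x.H1.FixData2Final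
open Fermat.Agent.S33x.W.InstMqFixedB (GamMq)
open Fermat.Agent.S33x.W.InstW (fixedAlg)
open Fermat.Agent.S40x.W.G1Ctx

attribute [-instance] IsScalarTower.of_algHom

variable {k : Type} [Field k] {π : P →+* k} [IsAlgClosed k]
variable {M q : ℕ} [NeZero M] [NeZero q] [Fact q.Prime] [CharP k q]
variable {hdeg : finrankAlong Qbar (heckeAlphaBar Qbar M q) = q + 1} {hq : q.Prime}
  {hqM : ¬ q ∣ M}
variable {hrk : ∀ x ∈ maximalIdeal P, ∀ c : P, c ≠ 0 → ∃ j : ℕ, c ∣ x ^ j}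
  {hπ : Function.Surjective π}
variable (H : ResidueFacts P π M q hdeg hq hqM hrk hπ) (hA : P.LiesOverPrime q)
  (x : LaurentSeries ℤ) (hx : coeffMap (Int.castRingHom Qbar) x ∈ FBar Qbar M)
  (Hx : GoodLevelFactsT P π M q hπ hqM (tInt M x hx))

include Hx hA in
/-- **The seam lemma at the concrete level `M q`**: for the chart rings `B` of `H1/InstC4`,
`B^{G1} = ∑_{j<q-1} (ζ - 1)^j B^I` (`ζ` a primitive `q`-th root of unity). -/
theorem exists_decomp_Mq [PerfectRing k q] (C : ChartCoord (redSetup2 H hA))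
    (hCt : C.t = tA M q x hx) (hxk : tbar k x ≠ 0) (hY : YFacts M q x hx)
    {ζ : Qbar} (hζ : IsPrimitiveRoot ζ q) :
    (∀ f ∈ fixedAlg (G1Act P ζ (M * q)) (Fermat.Agent.S33x.H1.InstC4.BxAlg C),
      ∃ y : ℕ → FL Qbar (M * q),
        (∀ j, y j ∈ fixedAlg (GamMq P M q) (Fermat.Agent.S33x.H1.InstC4.BxAlg C)) ∧
        f = ∑ j ∈ Finset.range (q - 1), (ζ - 1) ^ j • y j) ∧
    (∀ f ∈ fixedAlg (G1Act P ζ (M * q)) (Fermat.Agent.S33x.H1.InstC4.BooAlg C),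
      ∃ y : ℕ → FL Qbar (M * q),
        (∀ j, y j ∈ fixedAlg (GamMq P M q) (Fermat.Agent.S33x.H1.InstC4.BooAlg C)) ∧
        f = ∑ j ∈ Finset.range (q - 1), (ζ - 1) ^ j • y j) ∧
    (∀ f ∈ fixedAlg (G1Act P ζ (M * q)) (Fermat.Agent.S33x.H1.InstC4.BzeroAlg C),
      ∃ y : ℕ → FL Qbar (M * q),
        (∀ j, y j ∈ fixedAlg (GamMq P M q) (Fermat.Agent.S33x.H1.InstC4.BzeroAlg C)) ∧
        f = ∑ j ∈ Finset.range (q - 1), (ζ - 1) ^ j • y j) := by
  haveI : Algebra.IsAlgebraic ℚ Qbar := AlgebraicClosure.isAlgebraic ℚ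
  haveI : CharZero Qbar := algebraRat.charZero Qbar
  have ht : Transcendental Qbar C.t := by
    rw [hCt]
    exact Charts.transcendental_tα Qbar M q Hx.trans
  haveI hfin : FiniteDimensional Qbar⟮C.t⟯ (FL Qbar (M * q)) := by
    rw [hCt]
    exact finiteDimensional_tA x hx Hx
  have hctx := ctx_of_chart H hA x hx Hx C hCt hxk hY (Dt := Charts.divT ht) (Charts.divT_apply ht)
  have hgal := ctxGal_inertia H hA x hx Hx C hCt
  exact exists_decomp_chart hq hA hζ hctx hgal (G1Act_subset_GamMq P ζ M q)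
    (by
      rintro s ⟨τ, hτ, rfl⟩
      exact ⟨τ, hτ, fun _ => rfl⟩)
    (G1Act_baseAut' P ζ (M * q)) (fixData2_setOf H hA) (span_fixed_setOf P (M * q))

end Concrete

end Fermat.Agent.S40x.W.G1Decomp
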