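/-
P-S44/S40, leaf (W-G1), part 3 (helper3): the abstract (AS) core of `S40x/DepthB/Unit` (helper58)
instantiated over `W₁ = P^{G1}` with the uniformiser `ϖ₁ = ζ - 1`.

`exists_const_of_pow_W1` : for `Γ` a set of semilinear automorphisms with base automorphisms in
`G1 P ζ`, a decomposition `HW` over `W₁ = FixedDecomp.fixedSubring Γ` of the `Γ`-fixed chart rings,
a cocycle `c ∈ 1 + ϖ₁ Bx^Γ` with `c ^ p * u0 = uoo`, `uoo ∈ 1 + ϖ₁ Boo^Γ`, `u0 ∈ 1 + ϖ₁ B0^Γ` has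
`uoo ≡ υ ≡ u0` modulo `ϖ₁ ^ p` for a constant `υ ∈ 1 + ϖ₁ W₁`.
-/
import Fermat.Agent.S40x.W.G1Ctx
import Fermat.Agent.S40x.DepthB.Unit

set_option autoImplicit false
set_option linter.unusedSectionVars false

namespace Fermat.Agent.S40x.W.G1AS

open AlgebraicCurve
open Fermat.Agent.S40x.W.G1 Fermat.Agent.S40x.W.G1Ctx Fermat.Agent.S40x.DepthB
open Fermat.Agent.S33x.Cech Fermat.Agent.S33x.Cech.OfDirectSum
open Fermat.Agent.S33x.H1.FixedDecomp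
open Fermat.Agent.S33x.W.InstW (fixedAlg)

local notation "Qbar" => AlgebraicClosure ℚ

variable {P : ValuationSubring Qbar} {p : ℕ} {ζ : Qbar} {F : Type*} [Field F] [Algebra Qbar F]
  {Γ : Set (SemilinearAut Qbar F)} {Bx Boo B0 : Subalgebra P F} {g : ℕ} {a : Fin g → F}

/-- **(AS) over `W₁ = P^{G1}`**, uniformiser `ϖ₁ = ζ - 1`. -/
theorem exists_const_of_pow_W1 (hp : p.Prime) (hP : P.LiesOverPrime p) (hζ : IsPrimitiveRoot ζ p)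
    (hΓ : ∀ s ∈ Γ, ∃ σ ∈ G1 P ζ, ∀ c : Qbar, SemilinearAut.baseAut s c = σ c)
    (HW : DirectSum (fixedAlg Γ Bx) (fixedAlg Γ Boo) (fixedAlg Γ B0) a)
    {c : fixedAlg Γ Bx} (hc : algebraMap _ (fixedAlg Γ Bx) (piW hp hP hζ hΓ) ∣ c - 1)
    {uoo : ooIn (fixedAlg Γ Bx) (fixedAlg Γ Boo)} {u0 : zeroIn (fixedAlg Γ Bx) (fixedAlg Γ B0)}
    (huoo : algebraMap _ (ooIn (fixedAlg Γ Bx) (fixedAlg Γ Boo)) (piW hp hP hζ hΓ) ∣ uoo - 1)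
    (hu0 : algebraMap _ (zeroIn (fixedAlg Γ Bx) (fixedAlg Γ B0)) (piW hp hP hζ hΓ) ∣ u0 - 1)
    (hcp : c ^ p * u0 = uoo) :
    ∃ υ : fixedSubring (A := P) Γ, piW hp hP hζ hΓ ∣ υ - 1 ∧
      algebraMap _ (ooIn (fixedAlg Γ Bx) (fixedAlg Γ Boo)) (piW hp hP hζ hΓ) ^ p ∣
        uoo - algebraMap _ _ υ ∧
      algebraMap _ (zeroIn (fixedAlg Γ Bx) (fixedAlg Γ B0)) (piW hp hP hζ hΓ) ^ p ∣
        algebraMap _ _ υ - u0 :=
  exists_const_of_pow (satData_fixed HW (piW_ne_zero hp hP hζ hΓ)) hp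
    (piW_pow_dvd_natCast hp hP hζ hΓ) hc huoo hu0 hcp

end Fermat.Agent.S40x.W.G1AS
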